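import Fermat.Agent.S21.E.Defs
import Fermat.Agent.S21.EPrim.JFun

/-!
# Project ES, part E, work package E-MIN: shared core lemmas

Replacement of one member of a tuple, the determinant of the updated matrix of conjugates,
and analytic preliminaries on `E₄`, `Δ` and `h = E₄³ - j₀ Δ`.
All lemmas live in the namespace `Fermat.Agent.S21.E.Min`.
-/

set_option autoImplicit false
set_option linter.unusedSectionVars false
set_option linter.unusedVariables false

open UpperHalfPlane hiding I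
open Complex Filter Function Topology
open scoped Manifold MatrixGroups ModularForm Real

namespace Fermat.Agent.S21.E

noncomputable section

local notation "Δ" => ModularForm.discriminant
local notation "E₄" => ModularForm.E₄
local notation "E₆" => ModularForm.E₆

variable {Γ : Subgroup SL(2, ℤ)} [Fintype (SL(2, ℤ) ⧸ Γ)] [DecidableEq (SL(2, ℤ) ⧸ Γ)]

namespace Min

/-! ### Replacing a member of a tuple -/

/-- Replace the member `k₀ ≠ x0` of a tuple by a weakly holomorphic function `w` of degree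
`≤ e`, provided the new matrix of conjugates is still generically invertible. -/
def replace (t : Tuple Γ) (k₀ : SL(2, ℤ) ⧸ Γ) (hk₀ : k₀ ≠ x0 Γ) (w : ℍ → ℂ) (e : ℕ)
    (hw : IsWH Γ e w) (hnd : ∃ z : ℍ, (cmat Γ (Function.update t.v k₀ w) z).det ≠ 0) :
    Tuple Γ where
  v := Function.update t.v k₀ w
  d := Function.update t.d k₀ e
  wh k := by
    by_cases h : k = k₀
    · subst h
      simpa using hw
    · simpa [Function.update_of_ne h] using t.wh k
  v_one := by rw [Function.update_of_ne (Ne.symm hk₀)]; exact t.v_one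
  d_one := by rw [Function.update_of_ne (Ne.symm hk₀)]; exact t.d_one
  nondeg := hnd

theorem total_replace (t : Tuple Γ) (k₀ : SL(2, ℤ) ⧸ Γ) (hk₀ : k₀ ≠ x0 Γ) (w : ℍ → ℂ) (e : ℕ)
    (hw : IsWH Γ e w) (hnd : ∃ z : ℍ, (cmat Γ (Function.update t.v k₀ w) z).det ≠ 0) :
    (replace t k₀ hk₀ w e hw hnd).total + t.d k₀ = t.total + e := by
  unfold Tuple.total replace
  simp only
  rw [Finset.sum_update_of_mem (Finset.mem_univ k₀),
    ← Finset.add_sum_erase Finset.univ t.d (Finset.mem_univ k₀),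
    Finset.sdiff_singleton_eq_erase]
  ring

/-- A minimal tuple admits no degree-lowering replacement. -/
theorem not_replace {t : Tuple Γ} (ht : t.IsMin) (k₀ : SL(2, ℤ) ⧸ Γ) (hk₀ : k₀ ≠ x0 Γ)
    (w : ℍ → ℂ) (e : ℕ) (he : e < t.d k₀) (hw : IsWH Γ e w)
    (hnd : ∃ z : ℍ, (cmat Γ (Function.update t.v k₀ w) z).det ≠ 0) : False := by
  have h1 := total_replace t k₀ hk₀ w e hw hnd
  have h2 := ht (replace t k₀ hk₀ w e hw hnd)
  omega

/-- The matrix of conjugates of an updated family. -/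
theorem cmat_update (v : SL(2, ℤ) ⧸ Γ → ℍ → ℂ) (k₀ : SL(2, ℤ) ⧸ Γ) (w : ℍ → ℂ) (z : ℍ) :
    cmat Γ (Function.update v k₀ w) z =
      (cmat Γ v z).updateRow k₀ (fun x => cj Γ w x z) := by
  ext k x
  by_cases h : k = k₀
  · subst h
    simp [cmat, Matrix.updateRow_self]
  · simp [cmat, Matrix.updateRow_ne h, Function.update_of_ne h]

/-- If `a • (new row) = ∑ β k • (row k)` then `a * det' = β k₀ * det`. -/
theorem det_update (v : SL(2, ℤ) ⧸ Γ → ℍ → ℂ) (k₀ : SL(2, ℤ) ⧸ Γ) (w : ℍ → ℂ) (z : ℍ)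
    (a : ℂ) (β : SL(2, ℤ) ⧸ Γ → ℂ)
    (h : ∀ x, a * cj Γ w x z = ∑ k, β k * cj Γ (v k) x z) :
    a * (cmat Γ (Function.update v k₀ w) z).det = β k₀ * (cmat Γ v z).det := by
  rw [cmat_update, ← Matrix.det_updateRow_smul]
  have : (a • fun x => cj Γ w x z) = ∑ k, β k • (cmat Γ v z) k := by
    ext x
    simp only [Pi.smul_apply, smul_eq_mul, Finset.sum_apply, cmat, Matrix.of_apply]
    exact h x
  rw [this, Matrix.det_updateRow_sum]
  simp


/-! ### Analytic preliminaries -/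

theorem det_pos (g : SL(2, ℤ)) :
    0 < (Matrix.SpecialLinearGroup.mapGL ℝ g : GL (Fin 2) ℝ).det.val := by
  rw [Matrix.SpecialLinearGroup.det_mapGL]
  exact one_pos

theorem mdiff_comp_smul {f : ℍ → ℂ} (hf : MDiff f) (g : SL(2, ℤ)) :
    MDiff (fun z : ℍ => f (g • z)) := by
  have h : MDiff (fun z : ℍ => g • z) := by
    have : (fun z : ℍ => g • z) = fun z : ℍ =>
        (Matrix.SpecialLinearGroup.mapGL ℝ g : GL (Fin 2) ℝ) • z := rfl
    rw [this]
    exact UpperHalfPlane.mdifferentiable_smul (det_pos g)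
  exact hf.comp h

theorem mdiff_E4 : MDiff (fun z : ℍ => E₄ z) := ModularFormClass.holo E₄

theorem mdiff_disc : MDiff (fun z : ℍ => Δ z) := CuspFormClass.holo CuspForm.discriminant

theorem tendsto_disc : Tendsto (fun z : ℍ => Δ z) atImInfty (𝓝 0) :=
  ModularForm.discriminant_isZeroAtImInfty

theorem bdd_disc : IsBoundedAtImInfty (fun z : ℍ => Δ z) :=
  ModularForm.discriminant_isZeroAtImInfty.boundedAtFilter

theorem bdd_of_tendsto {f : ℍ → ℂ} {a : ℂ} (h : Tendsto f atImInfty (𝓝 a)) :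
    IsBoundedAtImInfty f := by
  have h1 : IsBoundedAtImInfty (fun z => f z - a) := by
    have : ZeroAtFilter atImInfty (fun z => f z - a) := by
      have := h.sub_const a
      simpa [ZeroAtFilter] using this
    exact this.boundedAtFilter
  have h2 : IsBoundedAtImInfty (fun _ : ℍ => a) := const_boundedAtFilter _ a
  have := h1.add h2
  refine this.congr' (Eventually.of_forall fun z => ?_) (by rfl)
  simp

/-- `h = E₄³ - j₀ Δ`. -/
def hJ (j₀ : ℂ) (z : ℍ) : ℂ := E₄ z ^ 3 - j₀ * Δ z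

theorem mdiff_hJ (j₀ : ℂ) : MDiff (hJ j₀) :=
  (mdiff_E4.pow 3).sub (mdifferentiable_const.mul mdiff_disc)

theorem hJ_smul (j₀ : ℂ) (g : SL(2, ℤ)) (z : ℍ) :
    hJ j₀ (g • z) = denom (Matrix.SpecialLinearGroup.mapGL ℝ g) z ^ (12 : ℤ) * hJ j₀ z := by
  unfold hJ
  rw [EPrim.E4_smul, EPrim.discriminant_smul]
  have : (denom (Matrix.SpecialLinearGroup.mapGL ℝ g) z ^ (4 : ℤ)) ^ 3 =
      denom (Matrix.SpecialLinearGroup.mapGL ℝ g) z ^ (12 : ℤ) := by
    rw [← zpow_natCast, ← zpow_mul]; norm_num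
  rw [mul_pow, this]
  ring

theorem denom_pow_ne_zero (g : SL(2, ℤ)) (z : ℍ) :
    denom (Matrix.SpecialLinearGroup.mapGL ℝ g) z ^ (12 : ℤ) ≠ 0 :=
  zpow_ne_zero _ (denom_ne_zero _ z)

theorem tendsto_hJ (j₀ : ℂ) : Tendsto (hJ j₀) atImInfty (𝓝 1) := by
  have := (EPrim.tendsto_E4.pow 3).sub (tendsto_disc.const_mul j₀)
  simp only [one_pow, mul_zero, sub_zero] at this
  exact this

theorem eventually_hJ_ne_zero (j₀ : ℂ) : ∀ᶠ z in atImInfty, hJ j₀ z ≠ 0 :=
  (tendsto_hJ j₀).eventually_ne one_ne_zero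

theorem exists_hJ_ne_zero (j₀ : ℂ) : ∃ z, hJ j₀ z ≠ 0 :=
  (eventually_hJ_ne_zero j₀).exists

theorem bdd_inv_hJ (j₀ : ℂ) : IsBoundedAtImInfty (fun z : ℍ => (hJ j₀ z)⁻¹) := by
  have := (tendsto_hJ j₀).inv₀ one_ne_zero
  exact bdd_of_tendsto this

/-- identity principle on `ℍ`: if `f * g = 0` and `f ≢ 0` then `g = 0`. -/
theorem eq_zero_of_mul_eq_zero {f g : ℍ → ℂ} (hf : MDiff f) (hg : MDiff g)
    (h : ∀ z, f z * g z = 0) (hne : ∃ z, f z ≠ 0) : ∀ z, g z = 0 := by
  have h0 : f * g = 0 := funext h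
  rcases (UpperHalfPlane.mul_eq_zero_iff hf hg).mp h0 with h1 | h1
  · obtain ⟨z, hz⟩ := hne
    exact absurd (congrFun h1 z) hz
  · exact fun z => congrFun h1 z

/-- A constant which is `O(Δ)` at `i∞` vanishes. -/
theorem eq_zero_of_bdd_inv_disc_mul {a : ℂ}
    (h : IsBoundedAtImInfty (fun z : ℍ => (Δ z)⁻¹ * a)) : a = 0 := by
  have h1 : ZeroAtFilter atImInfty (fun z : ℍ => Δ z * ((Δ z)⁻¹ * a)) :=
    ZeroAtFilter.mul_boundedAtFilter ModularForm.discriminant_isZeroAtImInfty h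
  have h2 : Tendsto (fun _ : ℍ => a) atImInfty (𝓝 0) := by
    refine Tendsto.congr (fun z => ?_) h1
    rw [← mul_assoc, mul_inv_cancel₀ (ModularForm.discriminant_ne_zero z), one_mul]
  exact tendsto_nhds_unique tendsto_const_nhds h2

end Min

end

end Fermat.Agent.S21.E
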