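import Fermat.Agent.S21.E.Defs
import Fermat.Agent.S21.EPrim.JPrim

/-!
# Project ES, part E, work package E-MIN: a minimal tuple is reduced (helper20)

`isMin_reduced_of_d_pos`: a tuple of minimal total degree (all of whose members other than the
constant `1` have positive degree) is reduced at `∞`.  If a nonzero constant combination of the
normalised family `Δ ^ d_k * v_k` were `O(Δ)` at all cusps, then
`u = Σ c_k j ^ (D - d_k) v_k` (`D` the maximal degree on the support of `c`) would have degree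
`≤ D - 1`, and replacing a member of degree `D` by `u` would decrease the total degree.

All declarations live in the namespace `Fermat.Agent.S21.E.MinReduced`.
-/

set_option autoImplicit false

open UpperHalfPlane hiding I
open Complex Filter Function Topology
open scoped Manifold MatrixGroups ModularForm Real

namespace Fermat.Agent.S21.E.MinReduced

noncomputable section

open Fermat.Agent.S21.EPrim (jfun jfun_smul mdifferentiable_jfun)

/-- `E₄ - 1 = O(Δ)` at `i∞`. -/
theorem E4_sub_one_isBigO :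
    (fun z : ℍ => ModularForm.E₄ z - 1) =O[atImInfty] (fun z : ℍ => ModularForm.discriminant z) := by
  have h1 := UpperHalfPlane.exp_decay_sub_atImInfty (f := ModularForm.E₄) one_pos
    (SlashInvariantFormClass.periodic_comp_ofComplex ModularForm.E₄ one_mem_strictPeriods_SL)
    (ModularFormClass.holo ModularForm.E₄) (ModularFormClass.bdd_at_infty ModularForm.E₄)
  have h0 : valueAtInfty (ModularForm.E₄ : ℍ → ℂ) = 1 := by
    rw [← UpperHalfPlane.qExpansion_coeff_zero one_pos
      (ModularFormClass.analyticAt_cuspFunction_zero ModularForm.E₄ one_pos one_mem_strictPeriods_SL)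
      (SlashInvariantFormClass.periodic_comp_ofComplex ModularForm.E₄ one_mem_strictPeriods_SL)]
    exact EisensteinSeries.E_qExpansion_coeff_zero _ ⟨2, rfl⟩
  rw [h0] at h1
  refine h1.trans ?_
  simpa using ModularForm.exp_isBigO_discriminant

theorem isBigO_one_complex_of_bdd {f : ℍ → ℂ} (hf : IsBoundedAtImInfty f) :
    f =O[atImInfty] (fun _ : ℍ => (1 : ℂ)) :=
  Asymptotics.IsBigO.trans hf (Asymptotics.isBigO_const_const (1 : ℝ) (one_ne_zero : (1 : ℂ) ≠ 0) _)

theorem bdd_of_isBigO_one_complex {f : ℍ → ℂ} (hf : f =O[atImInfty] (fun _ : ℍ => (1 : ℂ))) :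
    IsBoundedAtImInfty f :=
  Asymptotics.IsBigO.trans hf (Asymptotics.isBigO_const_const (1 : ℂ) (one_ne_zero : (1 : ℝ) ≠ 0) _)

theorem bdd_pow {f : ℍ → ℂ} (hf : IsBoundedAtImInfty f) (n : ℕ) :
    IsBoundedAtImInfty (fun z => f z ^ n) := by
  induction n with
  | zero =>
    simp only [pow_zero]
    exact Filter.const_boundedAtFilter atImInfty (1 : ℂ)
  | succ n ih =>
    simp only [pow_succ]
    exact Filter.BoundedAtFilter.mul ih hf

theorem bdd_sum {ι : Type*} (s : Finset ι) (f : ι → ℍ → ℂ)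
    (hf : ∀ i ∈ s, IsBoundedAtImInfty (f i)) :
    IsBoundedAtImInfty (fun z => ∑ i ∈ s, f i z) := by
  classical
  induction s using Finset.induction_on with
  | empty =>
    simp only [Finset.sum_empty]
    exact Filter.const_boundedAtFilter atImInfty (0 : ℂ)
  | insert a s ha ih =>
    simp only [Finset.sum_insert ha]
    exact Filter.BoundedAtFilter.add (hf a (Finset.mem_insert_self a s))
      (ih fun i hi => hf i (Finset.mem_insert_of_mem hi))

theorem E4_bdd : IsBoundedAtImInfty (fun z : ℍ => ModularForm.E₄ z) :=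
  ModularFormClass.bdd_at_infty ModularForm.E₄

/-- `(E₄ ^ m - 1) / Δ` is bounded at `i∞`. -/
theorem E4_pow_sub_one_div_bdd (m : ℕ) :
    IsBoundedAtImInfty (fun z : ℍ => (ModularForm.E₄ z ^ m - 1) *
      (ModularForm.discriminant z)⁻¹) := by
  have hsum : IsBoundedAtImInfty (fun z : ℍ => ∑ i ∈ Finset.range m, ModularForm.E₄ z ^ i) :=
    bdd_sum _ _ fun i _ => bdd_pow E4_bdd i
  have h1 : (fun z : ℍ => ModularForm.E₄ z ^ m - 1) =O[atImInfty]
      (fun z : ℍ => ModularForm.discriminant z) := by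
    have e : (fun z : ℍ => ModularForm.E₄ z ^ m - 1) =
        fun z : ℍ => (ModularForm.E₄ z - 1) * ∑ i ∈ Finset.range m, ModularForm.E₄ z ^ i := by
      funext z
      rw [mul_comm, geom_sum_mul]
    rw [e]
    have := E4_sub_one_isBigO.mul (isBigO_one_complex_of_bdd hsum)
    simpa using this
  have h2 := h1.mul (Asymptotics.isBigO_refl (fun z : ℍ => (ModularForm.discriminant z)⁻¹)
    atImInfty)
  apply bdd_of_isBigO_one_complex
  refine h2.congr_right fun z => ?_
  exact mul_inv_cancel₀ (ModularForm.discriminant_ne_zero z)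

theorem jfun_sl_smul (g : SL(2, ℤ)) (z : ℍ) : jfun (g • z) = jfun z :=
  jfun_smul g z

theorem mdiff_sum {ι : Type*} (s : Finset ι) (f : ι → ℍ → ℂ) (hf : ∀ i ∈ s, MDiff (f i)) :
    MDiff (fun z => ∑ i ∈ s, f i z) := by
  classical
  induction s using Finset.induction_on with
  | empty =>
    simp only [Finset.sum_empty]
    exact mdifferentiable_const
  | insert a s ha ih =>
    simp only [Finset.sum_insert ha]
    exact (hf a (Finset.mem_insert_self a s)).add
      (ih fun i hi => hf i (Finset.mem_insert_of_mem hi))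

/-- a nonzero constant times `Δ⁻¹` is not bounded at `i∞` -/
theorem not_bdd_inv_discriminant_mul {a : ℂ} (ha : a ≠ 0) :
    ¬ IsBoundedAtImInfty (fun z : ℍ => (ModularForm.discriminant z)⁻¹ * a) := by
  intro hb
  have hz : Tendsto (fun z : ℍ => ModularForm.discriminant z) atImInfty (𝓝 0) :=
    ModularForm.discriminant_isZeroAtImInfty
  have h1 : (fun z : ℍ => ModularForm.discriminant z) =o[atImInfty] (fun _ : ℍ => (1 : ℂ)) :=
    (Asymptotics.isLittleO_one_iff ℂ).mpr hz
  have h2 := h1.mul_isBigO (isBigO_one_complex_of_bdd hb)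
  have h3 : (fun z : ℍ => ModularForm.discriminant z * ((ModularForm.discriminant z)⁻¹ * a)) =
      fun _ : ℍ => a := by
    funext z
    rw [← mul_assoc, mul_inv_cancel₀ (ModularForm.discriminant_ne_zero z), one_mul]
  rw [h3] at h2
  simp only [mul_one] at h2
  have h4 : Tendsto (fun _ : ℍ => a) atImInfty (𝓝 0) := (Asymptotics.isLittleO_one_iff ℂ).mp h2
  exact ha (tendsto_const_nhds_iff.mp h4)

variable {Γ : Subgroup SL(2, ℤ)} [Fintype (SL(2, ℤ) ⧸ Γ)] [DecidableEq (SL(2, ℤ) ⧸ Γ)]

/-- the combination `u = Σ c_k j ^ (D - d_k) v_k` -/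
def comb (t : Tuple Γ) (c : SL(2, ℤ) ⧸ Γ → ℂ) (D : ℕ) : ℍ → ℂ :=
  fun z => ∑ k, c k * (jfun z ^ (D - t.d k) * t.v k z)

theorem comb_holo (t : Tuple Γ) (c : SL(2, ℤ) ⧸ Γ → ℂ) (D : ℕ) : MDiff (comb t c D) := by
  unfold comb
  refine mdiff_sum _ _ fun k _ => ?_
  exact mdifferentiable_const.mul ((mdifferentiable_jfun.pow _).mul (t.wh k).holo)

theorem comb_inv (t : Tuple Γ) (c : SL(2, ℤ) ⧸ Γ → ℂ) (D : ℕ) (γ : SL(2, ℤ)) (hγ : γ ∈ Γ)
    (z : ℍ) : comb t c D (γ • z) = comb t c D z := by
  unfold comb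
  refine Finset.sum_congr rfl fun k _ => ?_
  rw [jfun_sl_smul, (t.wh k).inv γ hγ z]

/-- key identity for the growth of `comb` at the cusps -/
theorem comb_bdd_identity (t : Tuple Γ) (c : SL(2, ℤ) ⧸ Γ → ℂ) (D : ℕ) (hD : 1 ≤ D)
    (hsupp : ∀ k, c k ≠ 0 → t.d k ≤ D) (g : SL(2, ℤ)) (z : ℍ) :
    ModularForm.discriminant z ^ (D - 1) * comb t c D (g • z) =
      (ModularForm.discriminant z)⁻¹ *
        ∑ k, c k * (ModularForm.discriminant z ^ t.d k * t.v k (g • z)) +
      ∑ k, c k * (((ModularForm.E₄ z ^ (3 * (D - t.d k)) - 1) *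
        (ModularForm.discriminant z)⁻¹) *
          (ModularForm.discriminant z ^ t.d k * t.v k (g • z))) := by
  have hΔ : ModularForm.discriminant z ≠ 0 := ModularForm.discriminant_ne_zero z
  unfold comb
  rw [Finset.mul_sum, Finset.mul_sum, ← Finset.sum_add_distrib]
  refine Finset.sum_congr rfl fun k _ => ?_
  by_cases hck : c k = 0
  · simp [hck]
  · have hk := hsupp k hck
    rw [jfun_sl_smul]
    unfold jfun
    have e1 : ModularForm.discriminant z ^ (D - 1) * ModularForm.discriminant z =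
        ModularForm.discriminant z ^ (D - t.d k) * ModularForm.discriminant z ^ t.d k := by
      rw [← pow_succ, ← pow_add]
      congr 1
      omega
    rw [div_pow]
    field_simp
    rw [← pow_mul]
    linear_combination ((ModularForm.E₄ z ^ (3 * (D - t.d k))) * t.v k (g • z)) * e1

theorem comb_isWH (t : Tuple Γ) (c : SL(2, ℤ) ⧸ Γ → ℂ) (D : ℕ) (hD : 1 ≤ D)
    (hsupp : ∀ k, c k ≠ 0 → t.d k ≤ D)
    (hb : ∀ g : SL(2, ℤ), IsBoundedAtImInfty (fun z : ℍ => (ModularForm.discriminant z)⁻¹ *
      ∑ k, c k * (ModularForm.discriminant z ^ t.d k * t.v k (g • z)))) :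
    IsWH Γ (D - 1) (comb t c D) where
  holo := comb_holo t c D
  inv := comb_inv t c D
  bdd g := by
    have h2 : IsBoundedAtImInfty (fun z : ℍ => ∑ k, c k *
        (((ModularForm.E₄ z ^ (3 * (D - t.d k)) - 1) * (ModularForm.discriminant z)⁻¹) *
          (ModularForm.discriminant z ^ t.d k * t.v k (g • z)))) := by
      refine bdd_sum _ _ fun k _ => ?_
      exact Filter.BoundedAtFilter.mul (Filter.const_boundedAtFilter atImInfty (c k))
        (Filter.BoundedAtFilter.mul (E4_pow_sub_one_div_bdd _) ((t.wh k).bdd g))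
    have h3 := Filter.BoundedAtFilter.add (hb g) h2
    refine h3.congr' (Eventually.of_forall fun z => ?_) (by rfl)
    simp only [Pi.add_apply]
    exact (comb_bdd_identity t c D hD hsupp g z).symm

/-- replace the member `k₀` of the family by `comb` -/
def newTuple (t : Tuple Γ) (c : SL(2, ℤ) ⧸ Γ → ℂ) (D : ℕ) (k₀ : SL(2, ℤ) ⧸ Γ)
    (hk₀ : k₀ ≠ x0 Γ) (hwh : IsWH Γ (D - 1) (comb t c D)) (hck : c k₀ ≠ 0) (hdk : t.d k₀ = D) :
    Tuple Γ where
  v := Function.update t.v k₀ (comb t c D)
  d := Function.update t.d k₀ (D - 1)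
  wh k := by
    by_cases h : k = k₀
    · subst h
      simpa using hwh
    · simpa [Function.update_of_ne h] using t.wh k
  v_one := by
    rw [Function.update_of_ne (Ne.symm hk₀)]
    exact t.v_one
  d_one := by
    rw [Function.update_of_ne (Ne.symm hk₀)]
    exact t.d_one
  nondeg := by
    obtain ⟨z, hz⟩ := t.nondeg
    refine ⟨z, ?_⟩
    have hM : cmat Γ (Function.update t.v k₀ (comb t c D)) z =
        (cmat Γ t.v z).updateRow k₀
          (∑ k, (c k * jfun z ^ (D - t.d k)) • (cmat Γ t.v z) k) := by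
      ext k x
      by_cases h : k = k₀
      · subst h
        simp only [cmat, Matrix.of_apply, Function.update_self, Matrix.updateRow_self, cj, comb,
          Finset.sum_apply, Pi.smul_apply, smul_eq_mul, jfun_sl_smul]
        refine Finset.sum_congr rfl fun i _ => ?_
        ring
      · simp [cmat, Function.update_of_ne h, Matrix.updateRow_ne h]
    rw [hM, Matrix.det_updateRow_sum, hdk]
    simp only [Nat.sub_self, pow_zero, mul_one, smul_eq_mul]
    exact mul_ne_zero hck hz

theorem newTuple_total (t : Tuple Γ) (c : SL(2, ℤ) ⧸ Γ → ℂ) (D : ℕ) (k₀ : SL(2, ℤ) ⧸ Γ)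
    (hk₀ : k₀ ≠ x0 Γ) (hwh : IsWH Γ (D - 1) (comb t c D)) (hck : c k₀ ≠ 0) (hdk : t.d k₀ = D)
    (hD : 1 ≤ D) :
    (newTuple t c D k₀ hk₀ hwh hck hdk).total + 1 = t.total := by
  unfold Tuple.total newTuple
  simp only
  rw [Finset.sum_update_of_mem (Finset.mem_univ k₀),
    ← Finset.add_sum_erase Finset.univ t.d (Finset.mem_univ k₀), hdk]
  have : Finset.univ \ {k₀} = Finset.univ.erase k₀ := by
    ext k
    simp
  rw [this]
  omega

/-- **E-MIN, reducedness** (with the positivity of the degrees as a hypothesis). -/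
theorem isMin_reduced_of_d_pos {t : Tuple Γ} (hpos : ∀ k, k ≠ x0 Γ → 1 ≤ t.d k)
    (ht : t.IsMin) : t.Reduced := by
  intro c hc hb
  obtain ⟨k₁, hk₁⟩ : ∃ k, c k ≠ 0 := by
    by_contra hcon
    apply hc
    funext k
    by_contra hk
    exact hcon ⟨k, hk⟩
  obtain ⟨k₀, hk₀mem, hk₀max⟩ := Finset.exists_max_image
    (Finset.univ.filter fun k => c k ≠ 0) t.d ⟨k₁, by simp [hk₁]⟩
  have hck₀ : c k₀ ≠ 0 := by simpa using hk₀mem
  have hsupp : ∀ k, c k ≠ 0 → t.d k ≤ t.d k₀ := fun k hk => hk₀max k (by simp [hk])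
  by_cases hD : t.d k₀ = 0
  · -- the support of `c` is `{x0}`
    have hsupp0 : ∀ k, c k ≠ 0 → k = x0 Γ := by
      intro k hk
      by_contra hne
      have h1 := hpos k hne
      have h2 := hsupp k hk
      omega
    have hk₀ : k₀ = x0 Γ := hsupp0 k₀ hck₀
    have h1 := hb 1
    have e : (fun z : ℍ => (ModularForm.discriminant z)⁻¹ *
        ∑ k, c k * (ModularForm.discriminant z ^ t.d k * t.v k ((1 : SL(2, ℤ)) • z))) =
        fun z : ℍ => (ModularForm.discriminant z)⁻¹ * c (x0 Γ) := by
      funext z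
      congr 1
      rw [Finset.sum_eq_single (x0 Γ)]
      · rw [t.d_one, t.v_one]
        simp
      · intro k _ hk
        have : c k = 0 := by
          by_contra h
          exact hk (hsupp0 k h)
        simp [this]
      · intro h
        exact absurd (Finset.mem_univ _) h
    rw [e] at h1
    exact not_bdd_inv_discriminant_mul (hk₀ ▸ hck₀) h1
  · have hD1 : 1 ≤ t.d k₀ := Nat.one_le_iff_ne_zero.mpr hD
    have hk₀ : k₀ ≠ x0 Γ := by
      intro h
      rw [h, t.d_one] at hD
      exact hD rfl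
    have hwh := comb_isWH t c (t.d k₀) hD1 hsupp hb
    have h1 := newTuple_total t c (t.d k₀) k₀ hk₀ hwh hck₀ rfl hD1
    have h2 := ht (newTuple t c (t.d k₀) k₀ hk₀ hwh hck₀ rfl)
    omega

end

end Fermat.Agent.S21.E.MinReduced
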