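import Fermat.Agent.S21.E.Min.Core
import Fermat.Agent.S21.E.Api.Const

/-!
# Project ES, part E, work package E-MIN: a minimal tuple is saturated

If `Δ * ∑ c k * v k = (E₄³ - j₀ Δ) * u'` with `c ≠ 0`, then `u'` is weakly holomorphic of
degree one less than the maximal degree occurring in the combination, and replacing the
corresponding member of the tuple by `u'` lowers the total degree.
-/

set_option autoImplicit false
set_option linter.unusedSectionVars false
set_option linter.unusedVariables false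

open UpperHalfPlane hiding I
open Complex Filter Function Topology
open scoped Manifold MatrixGroups ModularForm Real

namespace Fermat.Agent.S21.E

noncomputable section

local notation "Δ" => ModularForm.discriminant
local notation "E₄" => ModularForm.E₄
local notation "E₆" => ModularForm.E₆

variable {Γ : Subgroup SL(2, ℤ)} [Fintype (SL(2, ℤ) ⧸ Γ)] [DecidableEq (SL(2, ℤ) ⧸ Γ)]

namespace Min

theorem bdd_pow_disc (n : ℕ) : IsBoundedAtImInfty (fun z : ℍ => Δ z ^ n) :=
  bdd_of_tendsto (tendsto_disc.pow n)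

/-- transport of the divisibility identity along `g`. -/
theorem key {U u' : ℍ → ℂ} (j₀ : ℂ) (hid : ∀ z : ℍ, Δ z * U z = hJ j₀ z * u' z)
    (g : SL(2, ℤ)) (z : ℍ) : hJ j₀ z * u' (g • z) = Δ z * U (g • z) := by
  have h := hid (g • z)
  rw [EPrim.discriminant_smul, hJ_smul] at h
  have hne := denom_pow_ne_zero g z
  have h2 : denom (Matrix.SpecialLinearGroup.mapGL ℝ g) z ^ (12 : ℤ) * (hJ j₀ z * u' (g • z)) =
      denom (Matrix.SpecialLinearGroup.mapGL ℝ g) z ^ (12 : ℤ) * (Δ z * U (g • z)) := by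
    rw [← mul_assoc, ← mul_assoc]
    exact h.symm
  exact mul_left_cancel₀ hne h2

/-- the quotient `u'` is weakly holomorphic of degree `e` if `Δ ^ (e+1) * U ∘ g` is bounded. -/
theorem sat_wh {U u' : ℍ → ℂ} (j₀ : ℂ) (e : ℕ)
    (hUinv : ∀ γ ∈ Γ, ∀ z : ℍ, U (γ • z) = U z) (hu' : MDiff u')
    (hid : ∀ z : ℍ, Δ z * U z = hJ j₀ z * u' z)
    (hb : ∀ g : SL(2, ℤ), IsBoundedAtImInfty (fun z : ℍ => Δ z ^ (e + 1) * U (g • z))) :
    IsWH Γ e u' := by
  refine ⟨hu', ?_, ?_⟩
  · intro γ hγ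
    have hm : MDiff (fun z : ℍ => u' (γ • z) - u' z) := (mdiff_comp_smul hu' γ).sub hu'
    have h0 : ∀ z : ℍ, hJ j₀ z * (u' (γ • z) - u' z) = 0 := by
      intro z
      rw [mul_sub, key j₀ hid γ z, hUinv γ hγ z, hid z, sub_self]
    have := eq_zero_of_mul_eq_zero (mdiff_hJ j₀) hm h0 (exists_hJ_ne_zero j₀)
    intro z
    exact sub_eq_zero.mp (this z)
  · intro g
    have h1 : IsBoundedAtImInfty
        (fun z : ℍ => (hJ j₀ z)⁻¹ * (Δ z ^ (e + 1) * U (g • z))) :=
      (bdd_inv_hJ j₀).mul (hb g)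
    refine h1.congr' ?_ (by rfl)
    filter_upwards [eventually_hJ_ne_zero j₀] with z hz
    have hk := key j₀ hid g z
    have : u' (g • z) = (hJ j₀ z)⁻¹ * (Δ z * U (g • z)) := by
      rw [← hk, ← mul_assoc, inv_mul_cancel₀ hz, one_mul]
    rw [this, pow_succ]
    ring

/-- boundedness of `Δ ^ D * (combination ∘ g)` when `D` bounds the degrees in the support. -/
theorem bdd_comb (t : Tuple Γ) (c : SL(2, ℤ) ⧸ Γ → ℂ) (D : ℕ)
    (hD : ∀ k, c k ≠ 0 → t.d k ≤ D) (g : SL(2, ℤ)) :
    IsBoundedAtImInfty (fun z : ℍ => Δ z ^ D * ∑ k, c k * t.v k (g • z)) := by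
  have h1 : ∀ k, IsBoundedAtImInfty
      (fun z : ℍ => c k * (Δ z ^ (D - t.d k) * (Δ z ^ t.d k * t.v k (g • z)))) := by
    intro k
    exact (const_boundedAtFilter _ (c k)).mul ((bdd_pow_disc _).mul ((t.wh k).bdd g))
  have h2 : IsBoundedAtImInfty
      (fun z : ℍ => ∑ k, c k * (Δ z ^ (D - t.d k) * (Δ z ^ t.d k * t.v k (g • z)))) := by
    have h3 := Asymptotics.IsBigO.sum (s := Finset.univ) (fun k _ => h1 k)
    refine h3.congr' (Eventually.of_forall fun z => ?_) (by rfl)
    simp only [Finset.sum_apply]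
  refine h2.congr' (Eventually.of_forall fun z => ?_) (by rfl)
  simp only
  rw [Finset.mul_sum]
  refine Finset.sum_congr rfl fun k _ => ?_
  by_cases hk : c k = 0
  · simp [hk]
  · have : Δ z ^ (D - t.d k) * Δ z ^ t.d k = Δ z ^ D := by
      rw [← pow_add, Nat.sub_add_cancel (hD k hk)]
    rw [← this]
    ring

theorem comb_inv (t : Tuple Γ) (c : SL(2, ℤ) ⧸ Γ → ℂ) :
    ∀ γ ∈ Γ, ∀ z : ℍ, (∑ k, c k * t.v k (γ • z)) = ∑ k, c k * t.v k z := by
  intro γ hγ z
  refine Finset.sum_congr rfl fun k _ => ?_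
  rw [(t.wh k).inv γ hγ z]

end Min

theorem Min.isMin_saturated [Γ.FiniteIndex] {t : Tuple Γ} (ht : t.IsMin) : t.Saturated := by
  classical
  intro c hc j₀ ⟨u', hu', hid0⟩
  have hid : ∀ z : ℍ, Δ z * (fun z => ∑ k, c k * t.v k z) z = Min.hJ j₀ z * u' z := by
    intro z
    exact hid0 z
  -- the support of `c` and an index of maximal degree in it
  obtain ⟨k₁, hk₁⟩ : ∃ k, c k ≠ 0 := by
    by_contra h
    exact hc (funext fun k => by
      by_contra hk
      exact h ⟨k, hk⟩)
  have hne : (Finset.univ.filter fun k => c k ≠ 0).Nonempty := ⟨k₁, by simp [hk₁]⟩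
  obtain ⟨k₀, hk₀mem, hk₀max⟩ := Finset.exists_max_image _ t.d hne
  have hck₀ : c k₀ ≠ 0 := by simpa using hk₀mem
  have hD : ∀ k, c k ≠ 0 → t.d k ≤ t.d k₀ := fun k hk => hk₀max k (by simp [hk])
  by_cases hk₀x : k₀ = x0 Γ
  · -- all degrees in the support vanish: the combination is a nonzero constant
    have hsupp : ∀ k, k ≠ x0 Γ → c k = 0 := by
      intro k hk
      by_contra hck
      have h1 := hD k hck
      have h2 := Api.d_pos_aux t k hk
      rw [hk₀x, t.d_one] at h1
      omega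
    have hU : ∀ z : ℍ, (∑ k, c k * t.v k z) = c (x0 Γ) := by
      intro z
      rw [Finset.sum_eq_single (x0 Γ)]
      · rw [t.v_one, mul_one]
      · intro k _ hk
        rw [hsupp k hk, zero_mul]
      · intro h
        exact absurd (Finset.mem_univ _) h
    have hc0 : c (x0 Γ) ≠ 0 := hk₀x ▸ hck₀
    have hwh : IsWH Γ 0 u' := by
      refine Min.sat_wh j₀ 0 (Min.comb_inv t c) hu' hid ?_
      intro g
      have := Min.bdd_comb t c 1 (fun k hk => by
        have := hD k hk
        rw [hk₀x, t.d_one] at this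
        omega) g
      simpa using this
    obtain ⟨a, ha⟩ := Api.const_of_zero_aux hwh
    have hid' : ∀ z : ℍ, Δ z * c (x0 Γ) = Min.hJ j₀ z * a := by
      intro z
      have := hid z
      simp only [hU z, ha] at this
      exact this
    have hlim1 : Tendsto (fun z : ℍ => Δ z * c (x0 Γ)) atImInfty (𝓝 (0 * c (x0 Γ))) :=
      Min.tendsto_disc.mul_const _
    have hlim2 : Tendsto (fun z : ℍ => Min.hJ j₀ z * a) atImInfty (𝓝 (1 * a)) :=
      (Min.tendsto_hJ j₀).mul_const _
    have hfun : (fun z : ℍ => Δ z * c (x0 Γ)) = fun z : ℍ => Min.hJ j₀ z * a := funext hid'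
    rw [hfun] at hlim1
    have ha0 : a = 0 := by
      have := tendsto_nhds_unique hlim2 hlim1
      simpa using this
    have hz := hid' UpperHalfPlane.I
    rw [ha0, mul_zero] at hz
    rcases mul_eq_zero.mp hz with h | h
    · exact ModularForm.discriminant_ne_zero _ h
    · exact hc0 h
  · -- replace the member `k₀` by `u'`
    have hdpos : 1 ≤ t.d k₀ := Api.d_pos_aux t k₀ hk₀x
    have hwh : IsWH Γ (t.d k₀ - 1) u' := by
      refine Min.sat_wh j₀ (t.d k₀ - 1) (Min.comb_inv t c) hu' hid ?_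
      intro g
      have := Min.bdd_comb t c (t.d k₀) hD g
      rw [Nat.sub_add_cancel hdpos]
      exact this
    obtain ⟨z₁, hz₁⟩ := t.nondeg
    have hdet := Min.det_update t.v k₀ u' z₁ (Min.hJ j₀ z₁) (fun k => Δ z₁ * c k) (by
      intro x
      unfold cj
      rw [Min.key j₀ hid (Quotient.out x)⁻¹ z₁, Finset.mul_sum]
      refine Finset.sum_congr rfl fun k _ => ?_
      ring)
    have hnd : ∃ z : ℍ, (cmat Γ (Function.update t.v k₀ u') z).det ≠ 0 := by
      refine ⟨z₁, fun h0 => ?_⟩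
      rw [h0, mul_zero] at hdet
      have h3 : Δ z₁ * c k₀ * (cmat Γ t.v z₁).det ≠ 0 :=
        mul_ne_zero (mul_ne_zero (ModularForm.discriminant_ne_zero z₁) hck₀) hz₁
      exact h3 hdet.symm
    exact Min.not_replace ht k₀ hk₀x u' (t.d k₀ - 1) (by omega) hwh hnd

end

end Fermat.Agent.S21.E
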