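import Fermat.Agent.S21.E.Api
import Fermat.Agent.S21.E.Min.ReducedCore

/-!
# Project ES, part E, work package E-MIN: a minimal tuple is reduced (helper20)

`isMin_reduced` has exactly the statement of the interface theorem `Tuple.IsMin.reduced`.
-/

set_option autoImplicit false

open scoped MatrixGroups

namespace Fermat.Agent.S21.E.MinReduced

variable {Γ : Subgroup SL(2, ℤ)} [Fintype (SL(2, ℤ) ⧸ Γ)] [DecidableEq (SL(2, ℤ) ⧸ Γ)]

theorem isMin_reduced [Γ.FiniteIndex] {t : Tuple Γ} (ht : t.IsMin) : t.Reduced :=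
  isMin_reduced_of_d_pos (fun k hk => t.d_pos k hk) ht

end Fermat.Agent.S21.E.MinReduced
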